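/-
MLT / [L1] case (C), ORDINARY case (helper9): fork of `Lib/MLT/Fr3/Van/HE.lean` (itself the `p = 3` fork of
`Lib/Ihara/Van/HE.lean`) with the condition at `p` `IsOrdinaryAt p` (`p ∤ N`, S32) replaced by `IsOrdinaryAt p`
(`p ∥ N` and `ρbar` ordinary at `p`, S33).  Generated by a rename script: only the declarations depending on the
condition at `p` are repeated, with the prefix `jh`/`Jh` replaced by `kh`/`Kh`.
-/
import Mathlib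
import Fermat.Agent.Lib.Ihara.Van.Out
import Fermat.Agent.Lib.MLT.Fr3.Van.Out
import Fermat.Agent.Lib.MLT.CO.J.Van.Out
import Fermat.Agent.Lib.Ihara.Tw.ChainHecke
import Fermat.Agent.Lib.MLT.Fr3.E.Main
import Fermat.Agent.Lib.MLT.CO.J.E.Main
import Fermat.Agent.Lib.MLT.Fr3.E.Out
import Fermat.Agent.Lib.MLT.CO.J.E.Out
import Fermat.Agent.Lib.MLT.Fr3.Fr.Control
import Fermat.Agent.Lib.MLT.Fr3.Fr.Cyc
import Fermat.Agent.Lib.MLT.Fr3.Fr.Defs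
import Fermat.Agent.Lib.MLT.Fr3.Fr.Free
import Fermat.Agent.Lib.MLT.Fr3.Fr.Ind
import Fermat.Agent.Lib.MLT.Fr3.Fr.Main
import Fermat.Agent.Lib.MLT.Fr3.Fr.Ops
import Fermat.Agent.Lib.MLT.Fr3.Fr.Red
import Fermat.Agent.Lib.MLT.Fr3.Fr.ToolB
import Fermat.Agent.Lib.MLT.Fr3.Glue.Main
import Fermat.Agent.Lib.MLT.Fr3.Glue.Out
import Fermat.Agent.Lib.MLT.CO.J.Glue.Out
import Fermat.Agent.Lib.MLT.Fr3.Glue.Top
import Fermat.Agent.Lib.MLT.CO.J.Glue.Top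
import Fermat.Agent.Lib.MLT.Fr3.Hm.ChiPart
import Fermat.Agent.Lib.MLT.Fr3.Hm.Ctrl
import Fermat.Agent.Lib.MLT.Fr3.Hm.Dia
import Fermat.Agent.Lib.MLT.Fr3.Hm.Lvl
import Fermat.Agent.Lib.MLT.Fr3.Hm.Nil
import Fermat.Agent.Lib.MLT.Fr3.Hm.Part
import Fermat.Agent.Lib.MLT.Fr3.Hm.PartT
import Fermat.Agent.Lib.MLT.Fr3.Hm.Rank
import Fermat.Agent.Lib.MLT.Fr3.Hm.Top
import Fermat.Agent.Lib.MLT.Fr3.Old.Zero
import Fermat.Agent.Lib.MLT.Fr3.Van.Main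
import Fermat.Agent.Lib.MLT.CO.J.Van.Main
import Fermat.Agent.Lib.Ihara.Van.HE
import Fermat.Agent.Lib.MLT.Fr3.Van.HE
import Fermat.Agent.Lib.MLT.CO.I.Img.Rep
import Fermat.Agent.Lib.MLT.CO.I.Glue.Rep
import Fermat.Agent.Lib.MLT.CO.I.E.Main
import Fermat.Agent.Lib.MLT.CO.I.Glue.Out
import Fermat.Agent.Lib.MLT.CO.I.E.Out
import Fermat.Agent.Lib.MLT.CO.I.Nf.FieldsChi
import Fermat.Agent.Lib.MLT.CO.I.Glue.Fields
import Fermat.Agent.Lib.MLT.CO.I.Glue.Hecke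
import Fermat.Agent.Lib.MLT.CO.I.Sc.Out

set_option autoImplicit false
set_option linter.unusedSectionVars false
set_option linter.unusedVariables false
set_option linter.style.haveILetI false

open IsLocalRing Matrix Polynomial Fermat.Agent.S53Lib Fermat.Agent.TW
open Matrix MatrixGroups CongruenceSubgroup ModularCurve ModularCurve.Period Module
open Fermat.Agent.DS Fermat.Agent.T1 Fermat.Agent.T1G Fermat.Agent.T2

namespace Fermat.Agent.Ihara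

local notation "Qbar" => AlgebraicClosure ℚ
local notation "GQ" => (AlgebraicClosure ℚ ≃ₐ[ℚ] AlgebraicClosure ℚ)

section HBot

end HBot

section HE

variable (O : Type) [CommRing O] [IsDomain O] [IsDiscreteValuationRing O] [CharZero O]
  [IsAdicComplete (IsLocalRing.maximalIdeal O) O] [Finite (ResidueField O)]
  (M : ℕ) [NeZero M] (hM : 6 ≤ M)
  (H : Subgroup (ZMod M)ˣ) (Ps : Set ℕ) (θ₀ : ℕ → O)
  {p : ℕ} [Fact p.Prime] (hL : JhfLevel p M H) (hpO : (p : O) ∈ IsLocalRing.maximalIdeal O)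
  (Δ₁ : Subgroup ((ZMod M)ˣ ⧸ H)) (χ χ'' : Δ₁ →* O)
  (ϖ : O) (hϖ : (Ideal.span {ϖ}).IsMaximal) (hχ : ∀ g : Δ₁, χ g - χ'' g ∈ Ideal.span {ϖ})

include hL hpO hϖ hχ in
/-- **the binder `hE` of `khk_hecke`** (for one output `KhkOut` on `M^χ`) -/
theorem khv_hE
    [Nontrivial (IhmChiPart O M hM H Ps θ₀ Δ₁ χ'')]
    [Module.Finite O (IhmChiPart O M hM H Ps θ₀ Δ₁ χ'')]
    [Module.IsTorsionFree O (IhmChiPart O M hM H Ps θ₀ Δ₁ χ'')]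
    -- the chain of the composite twist
    {Rl : List ℕ} {k : ℕ → ℕ} (hyp : IhtcHyp M H Rl k) {q₀ : ℕ} (hq₀ : q₀ ∈ Rl) (hq₀p : q₀ ≠ p)
    (hq₀1 : p ∣ q₀ - 1)
    {N' : ℕ} [NeZero N'] (hN' : N' = M * Rl.prod)
    {S : Finset ℕ} (hpS : p ∈ S) (hS : ∀ l : ℕ, l.Prime → l ∣ N' → l ∈ S)
    (hPs : ∀ l : ℕ, l.Prime → l ∉ S → l ∈ Ps) (hpN' : p ∣ N' ∧ ¬ p ^ 2 ∣ N')
    -- the bigger level structure `H' ⊇ H`, containing the whole `q₀`-component, killed by `χ''`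
    (H' : Subgroup (ZMod M)ˣ) (hle : H ≤ H') (hqH' : ∀ u : (ZMod q₀)ˣ, ihtcIota M q₀ u ∈ H')
    (hχH' : ∀ d ∈ H', ∃ hd : ((d : (ZMod M)ˣ) : (ZMod M)ˣ ⧸ H) ∈ Δ₁, χ'' ⟨_, hd⟩ = 1)
    -- the lower level `Γ_{Hm}(Nm)`, `M = Nm q₀`
    {Nm : ℕ} [NeZero Nm] {Hm : Subgroup (ZMod Nm)ˣ} (hP : IhtkPair M H' Nm Hm q₀)
    -- no `θ₀`-local class at the lower level
    (Ps' : Set ℕ) (hPs' : Ps' ⊆ Ps) (hq₀Ps' : q₀ ∉ Ps')
    (hbot : ∀ (R : Type) [CommRing R] [IsDomain R] [IsDiscreteValuationRing R] [CharZero R]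
      [IsAdicComplete (IsLocalRing.maximalIdeal R) R] [Finite (ResidueField R)] [Algebra O R]
      [IsLocalHom (algebraMap O R)],
      ihmPart R Nm Hm Ps' (fun ℓ => algebraMap O R (θ₀ ℓ)) = ⊥)
    -- the residual representation
    (ρbar : ResidualGaloisRep (ResidueField O)) (habs : ρbar.IsAbsolutelyIrreducible)
    (hord : (GaloisRepAdic.ofResidualGaloisRep ρbar).IsOrdinaryAt p)
    (hfrob : ∀ (ℓ : ℕ), ℓ.Prime → ℓ ∉ S →
      ∀ P : ValuationSubring Qbar, P.LiesOverPrime ℓ → ∀ σ : GQ, P.IsFrobeniusAt σ ℓ →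
        LinearMap.charpoly (ρbar.ρ σ) =
          X ^ 2 - C (residue O (θ₀ ℓ)) * X + C ((ℓ : ResidueField O)))
    (b : Module.Basis (Fin 2) (ResidueField O) ρbar.V)
    (Smin : Finset ℕ) (hSmin : ∀ q ∈ Smin, q.Prime → q ≠ p → q ∣ N' ∧ ¬ q ^ 2 ∣ N')
    -- the Frobenius lift at `q₀` and the sign
    (g : GQ) (Pl : ValuationSubring Qbar) (hPl : Pl.LiesOverPrime q₀)
    (hg : Pl.IsFrobeniusAt g q₀)
    (cs : O) (hcs : cs ^ 2 = 1) (hρg : ρbar.ρ g = residue O cs • 1)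
    -- the datum on `M^χ`
    [Module.Finite O (IhmChiPart O M hM H Ps θ₀ Δ₁ χ)]
    [Module.IsTorsionFree O (IhmChiPart O M hM H Ps θ₀ Δ₁ χ)]
    (a : CuspForm.heckeAlgebra N' 2 (↑S : Set ℕ) →+*
      Module.End O (IhmChiPart O M hM H Ps θ₀ Δ₁ χ))
    (θ' : CuspForm.heckeAlgebra N' 2 (↑S : Set ℕ) →+* ResidueField O)
    (hpart : ihdPart O a θ' = ⊤) [Nontrivial ↥(ihdPart O a θ')]
    (rA : GQ →* Matrix (Fin 2) (Fin 2) (IhdImg O a θ')) (hcts : MatCts (IhdImg O a θ') rA)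
    (out : KhkOut O M hM H Ps θ₀ Δ₁ χ (ihtcZ M Rl k) p ρbar b Smin a θ' hpart rA hcts)
    (v : IhmChiPart O M hM H Ps θ₀ Δ₁ χ) :
    ∃ v' : IhmChiPart O M hM H Ps θ₀ Δ₁ χ,
      ihiAct O a θ' hpart ((rA g).trace -
        algebraMap O (IhdImg O a θ') (cs * (1 + (q₀ : O)))) v = ϖ • v' := by
  have hne : Rl ≠ [] := List.ne_nil_of_mem hq₀
  have hMN' : M ∣ N' := hN' ▸ Dvd.intro _ rfl
  obtain ⟨a₀, ha₀⟩ := ihtc_exists_hom hyp hne hN' O (↑S : Set ℕ)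
    (fun l hl hlN' => by exact_mod_cast hS l hl hlN')
  exact khe_field_out O M hM H Ps θ₀ hL hpO Δ₁ χ χ'' ϖ hϖ hχ hMN' hS hPs hpS hpN' (ihtcZ M Rl k)
    a₀ ha₀ ρbar habs hord hfrob b Smin hSmin g (cs * (1 + (q₀ : O)))
    (fun a'' θ'' hpart'' _ rA'' hcts'' out'' =>
      khv_vanish_out O M hM H Ps θ₀ hL hpO Δ₁ χ'' hyp hq₀ hq₀p hq₀1 hN' hpS hS hPs H' hle hqH'
        hχH' hP Ps' hPs' hq₀Ps' hbot ρbar b Smin g Pl hPl hg cs hcs hρg a'' θ'' hpart'' rA''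
        hcts'' out'')
    a θ' hpart rA hcts out v

end HE

end Fermat.Agent.Ihara
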